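import Mathlib
import Fermat.Agent.S18.C.TameInertia

/-!
# S56, shared leaf: wild and tame inertia in residue characteristic `q`

`B` a Dedekind domain, `G` a finite group acting faithfully on `B` by ring automorphisms, `P` a
nonzero prime of `B` with residue characteristic `q` (a prime number).  With the tame character
`tameChar : P.inertia G →* B ⧸ P` of `S18/C/TameInertia`:

* `wild P`: the wild inertia group `{σ | ∀ x ∈ P, σ x - x ∈ P ^ 2}`, the kernel of every tame
  character (`wild_eq_ker`);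
* `eq_one_of_mem_wild`: an element of `wild P` of order prime to `q` is trivial;
* `isPGroup_wild`: `wild P` is a `q`-group;
* `isCyclic_quotient_wild`: the tame quotient `P.inertia G ⧸ wild P` is cyclic;
* `isCyclic_range_of_isPGroup`: every image of the inertia group which is a `p`-group, `p ≠ q`,
  is cyclic (and `exists_generator_of_isPGroup`);
* `exists_generator_of_hom`: the same for homomorphisms defined on a group mapping to the inertia
  group, with a generator independent of the homomorphism;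
* `tameChar_conj_mk`, `tameChar_conj_resHom`: `tameChar (g τ g⁻¹) = ḡ (tameChar τ)` for `g` in the
  stabiliser of `P`;
* `tameChar_conj`: if `g` stabilises `P` and induces `x ↦ x ^ N` on `B ⧸ P`, then
  `tameChar (g τ g⁻¹) = tameChar τ ^ N`;  `conj_mul_inv_pow_mem_wild`: `g τ g⁻¹ τ⁻ᴺ` is wild;
* `exists_modEq_conj_mem_wild`: if `p ∣ q - 1` then `g τ g⁻¹ τ⁻ᵃ` is wild for some `a ≡ 1 mod p`.
-/

set_option autoImplicit false

namespace Fermat.Agent.S56.Tame

open Ideal Fermat.Agent.S18.C.TameInertia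
open scoped Pointwise

/-! ### the group theory -/

section Group

/-- an element killed by a power of `q` and by a power of `p ≠ q` is trivial -/
theorem eq_one_of_pow_eq_one_of_pow_eq_one {Γ : Type*} [Monoid Γ] {x : Γ} {q p : ℕ}
    (hq : q.Prime) (hp : p.Prime) (hpq : p ≠ q) {a b : ℕ} (ha : x ^ q ^ a = 1)
    (hb : x ^ p ^ b = 1) : x = 1 := by
  have h1 : orderOf x ∣ q ^ a := orderOf_dvd_of_pow_eq_one ha
  have h2 : orderOf x ∣ p ^ b := orderOf_dvd_of_pow_eq_one hb
  have hcop : Nat.Coprime (q ^ a) (p ^ b) :=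
    Nat.Coprime.pow _ _ ((Nat.coprime_primes hq hp).mpr (Ne.symm hpq))
  exact orderOf_eq_one_iff.mp (Nat.eq_one_of_dvd_coprimes hcop h1 h2)

/-- if `ρ ω` lies in the `q`-group `Wd`, `f` is trivial on `ker ρ` and the range of `f` is a
`p`-group, `p ≠ q`, then `f ω = 1` -/
theorem map_eq_one_of_mem {I T Γ : Type*} [Group I] [Group T] [Group Γ]
    (Wd : Subgroup T) {q p : ℕ} (hq : q.Prime) (hp : p.Prime)
    (hpq : p ≠ q) (hWd : IsPGroup q Wd) (ρ : I →* T) (f : I →* Γ) (hker : ρ.ker ≤ f.ker)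
    (hf : IsPGroup p f.range) {ω : I} (hωW : ρ ω ∈ Wd) : f ω = 1 := by
  obtain ⟨a, ha⟩ := hWd ⟨ρ ω, hωW⟩
  have ha' : ρ (ω ^ q ^ a) = 1 := by
    have := congrArg Subtype.val ha
    rw [map_pow]
    simpa using this
  have hfa : f ω ^ q ^ a = 1 := by
    have h3 : ω ^ q ^ a ∈ f.ker := hker (MonoidHom.mem_ker.mpr ha')
    rw [← map_pow]
    exact MonoidHom.mem_ker.mp h3
  obtain ⟨b, hb⟩ := hf ⟨f ω, ω, rfl⟩
  have hfb : f ω ^ p ^ b = 1 := by
    have := congrArg Subtype.val hb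
    simpa using this
  exact eq_one_of_pow_eq_one_of_pow_eq_one hq hp hpq hfa hfb

universe v

/-- `T` a finite group with a normal `q`-subgroup `Wd` and cyclic quotient; `ρ : I →* T`.
There is ONE `τ : I` such that for every `f : I →* Γ` trivial on `ker ρ` with a `p`-group as range,
`p ≠ q`, the range of `f` is generated by `f τ`. -/
theorem exists_generator_of_factors_uniform {I T : Type*} [Group I] [Group T] [Finite T]
    (Wd : Subgroup T) [Wd.Normal] [IsCyclic (T ⧸ Wd)] {q p : ℕ} (hq : q.Prime) (hp : p.Prime)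
    (hpq : p ≠ q) (hWd : IsPGroup q Wd) (ρ : I →* T) :
    ∃ τ : I, ∀ (Γ : Type v) [Group Γ] (f : I →* Γ), ρ.ker ≤ f.ker → IsPGroup p f.range →
      ∀ σ : I, ∃ m : ℕ, f σ = f τ ^ m := by
  set ρb : I →* T ⧸ Wd := (QuotientGroup.mk' Wd).comp ρ with hρb
  have hcyc : IsCyclic ρb.range := Subgroup.isCyclic _
  obtain ⟨⟨γ, τ, rfl⟩, hγ⟩ := IsCyclic.exists_generator (α := ρb.range)
  refine ⟨τ, fun Γ _ f hker hf σ => ?_⟩
  have h1 := hγ ⟨ρb σ, σ, rfl⟩
  have hfin : Finite ρb.range := inferInstance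
  rw [← mem_powers_iff_mem_zpowers] at h1
  obtain ⟨m, hm⟩ := h1
  refine ⟨m, ?_⟩
  have hm' : ρb τ ^ m = ρb σ := by
    have := congrArg Subtype.val hm
    simpa using this
  set ω : I := (τ ^ m)⁻¹ * σ with hω
  have hωW : ρ ω ∈ Wd := by
    have h2 : ρb ω = 1 := by
      rw [hω, map_mul, map_inv, map_pow, hm', inv_mul_cancel]
    rw [hρb, MonoidHom.comp_apply, QuotientGroup.mk'_apply, QuotientGroup.eq_one_iff] at h2
    exact h2
  have hfω : f ω = 1 := map_eq_one_of_mem Wd hq hp hpq hWd ρ f hker hf hωW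
  have hσ : σ = τ ^ m * ω := by rw [hω, mul_inv_cancel_left]
  rw [hσ, map_mul, hfω, mul_one, map_pow]

/-- the non-uniform version -/
theorem exists_generator_of_factors {I T Γ : Type*} [Group I] [Group T] [Finite T] [Group Γ]
    (Wd : Subgroup T) [Wd.Normal] [IsCyclic (T ⧸ Wd)] {q p : ℕ} (hq : q.Prime) (hp : p.Prime)
    (hpq : p ≠ q) (hWd : IsPGroup q Wd) (ρ : I →* T) (f : I →* Γ) (hker : ρ.ker ≤ f.ker)
    (hf : IsPGroup p f.range) : ∃ τ : I, ∀ σ : I, ∃ m : ℕ, f σ = f τ ^ m := by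
  obtain ⟨τ, hτ⟩ := exists_generator_of_factors_uniform Wd hq hp hpq hWd ρ
  exact ⟨τ, hτ Γ f hker hf⟩

/-- a group of exponent `p` is a `p`-group -/
theorem isPGroup_of_forall_pow_eq_one {Γ : Type*} [Group Γ] {p : ℕ} (h : ∀ x : Γ, x ^ p = 1)
    (H : Subgroup Γ) : IsPGroup p H := fun x =>
  ⟨1, Subtype.ext (by rw [pow_one, Subgroup.coe_pow, Subgroup.coe_one]; exact h _)⟩

end Group

section Defs

variable {B : Type*} [CommRing B] {G : Type*} [Group G] [MulSemiringAction G B] (P : Ideal B)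

/-- The wild inertia group: the elements of the inertia group moving `P` only by `P ^ 2`. -/
def wild : Subgroup (P.inertia G) where
  carrier := {σ | ∀ x ∈ P, (σ : G) • x - x ∈ P ^ 2}
  one_mem' := by
    intro x _
    simp
  mul_mem' := by
    intro σ τ hσ hτ x hx
    have e : ((σ * τ : P.inertia G) : G) • x - x
        = (σ : G) • ((τ : G) • x - x) + ((σ : G) • x - x) := by
      rw [Subgroup.coe_mul, mul_smul, smul_sub]
      ring
    rw [e]
    exact Ideal.add_mem _ (smul_mem_pow_of_mem_inertia P σ.2 2 (hτ x hx)) (hσ x hx)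
  inv_mem' := by
    intro σ hσ x hx
    have hx' : ((σ⁻¹ : P.inertia G) : G) • x ∈ P := smul_mem_of_mem_inertia P (σ⁻¹).2 hx
    have h1 := hσ _ hx'
    have e : ((σ⁻¹ : P.inertia G) : G) • x - x
        = -((σ : G) • (((σ⁻¹ : P.inertia G) : G) • x) - ((σ⁻¹ : P.inertia G) : G) • x) := by
      rw [Subgroup.coe_inv, smul_inv_smul]
      ring
    rw [e]
    exact Ideal.neg_mem_iff _ |>.mpr h1

theorem mem_wild_iff {σ : P.inertia G} :
    σ ∈ wild P ↔ ∀ x ∈ P, (σ : G) • x - x ∈ P ^ 2 := Iff.rfl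

/-- an element of the stabiliser preserves the powers of `P` -/
theorem smul_mem_pow_of_smul_mem {g : G} (hg : ∀ x ∈ P, g • x ∈ P) (i : ℕ) {x : B}
    (hx : x ∈ P ^ i) : g • x ∈ P ^ i := by
  induction i generalizing x with
  | zero => simp
  | succ i ih =>
    rw [pow_succ] at hx ⊢
    refine Submodule.mul_induction_on hx ?_ ?_
    · intro y hy z hz
      rw [smul_mul']
      exact Ideal.mul_mem_mul (ih hy) (hg z hz)
    · intro y z hy hz
      rw [smul_add]
      exact Ideal.add_mem _ hy hz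

end Defs

section Char

variable {B : Type*} [CommRing B] [IsDedekindDomain B] {G : Type*} [Group G]
  [MulSemiringAction G B] (P : Ideal B) [P.IsPrime]

/-- if `σ` in the inertia group moves one uniformiser by `P ^ 2`, it moves all of `P` by
`P ^ 2` -/
theorem mem_wild_of_smul_sub_mem (hP : P ≠ ⊥) {π : B} (hπ : π ∈ P) (hπ2 : π ∉ P ^ 2)
    {σ : P.inertia G} (h : (σ : G) • π - π ∈ P ^ 2) : σ ∈ wild P := by
  intro z hz
  obtain ⟨d, hd⟩ := exists_coeff P hP hπ hπ2 hz
  have e : (σ : G) • z - z = (σ : G) • (z - π * d) - (z - π * d)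
      + ((σ : G) • π - π) * ((σ : G) • d) + π * ((σ : G) • d - d) := by
    rw [smul_sub, smul_mul']
    ring
  rw [e]
  refine Ideal.add_mem _ (Ideal.add_mem _ (Ideal.sub_mem _ ?_ hd) ?_) ?_
  · exact smul_mem_pow_of_mem_inertia P σ.2 2 hd
  · exact Ideal.mul_mem_right _ _ h
  · have h5 : π * ((σ : G) • d - d) ∈ P * P := Ideal.mul_mem_mul hπ (σ.2 d)
    rwa [← pow_two] at h5

/-- the wild inertia group is the kernel of the tame character (for every uniformiser) -/
theorem wild_eq_ker (hP : P ≠ ⊥) {π : B} (hπ : π ∈ P) (hπ2 : π ∉ P ^ 2) :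
    wild P = (tameChar G P hP hπ hπ2).ker := by
  ext σ
  rw [MonoidHom.mem_ker]
  constructor
  · intro hσ
    have h1 : (σ : G) • π - π * 1 ∈ P ^ 2 := by simpa using hσ π hπ
    rw [tameChar_eq P hP hπ hπ2 σ h1, map_one]
  · intro h1
    have := smul_sub_mul_tameChar_mem P hP hπ hπ2 σ (d := 1) (by rw [h1, map_one])
    exact mem_wild_of_smul_sub_mem P hP hπ hπ2 (by simpa using this)

theorem normal_wild (hP : P ≠ ⊥) : (wild P : Subgroup (P.inertia G)).Normal := by
  obtain ⟨π, hπ, hπ2⟩ := exists_uniformizer P hP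
  rw [wild_eq_ker P hP hπ hπ2]
  exact MonoidHom.normal_ker _

/-- an element of the wild inertia group of finite order `n`, with `n` invertible modulo `P`,
acts trivially -/
theorem smul_eq_of_mem_wild (hP : P ≠ ⊥) {σ : P.inertia G} (hσw : σ ∈ wild P) {n : ℕ}
    (hn : ((n : ℕ) : B ⧸ P) ≠ 0) (hσn : σ ^ n = 1) (x : B) : (σ : G) • x = x := by
  by_contra hne
  have hσ := σ.2
  have hP2 : ∀ z ∈ P, (σ : G) • z - z ∈ P ^ 2 := hσw
  set y := (σ : G) • x - x with hy
  have hy0 : y ≠ 0 := fun h => hne (sub_eq_zero.mp h)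
  have hPtop : P ≠ ⊤ := Ideal.IsPrime.ne_top inferInstance
  have hinf : ⨅ i : ℕ, P ^ i = ⊥ := Ideal.iInf_pow_eq_bot_of_isDomain P hPtop
  have hex : ∃ j : ℕ, y ∉ P ^ j := by
    by_contra hcon
    simp only [not_exists, not_not] at hcon
    apply hy0
    have : y ∈ ⨅ i : ℕ, P ^ i := by
      rw [Ideal.mem_iInf]
      exact hcon
    rw [hinf] at this
    exact this
  classical
  set j := Nat.find hex with hj
  have hjspec : y ∉ P ^ j := Nat.find_spec hex
  have hj0 : j ≠ 0 := by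
    intro h0
    rw [h0] at hjspec
    exact hjspec (by simp)
  obtain ⟨i, hi⟩ := Nat.exists_eq_succ_of_ne_zero hj0
  have hyi : y ∈ P ^ i := by
    by_contra hcon
    have := Nat.find_min' hex hcon
    omega
  rw [hi] at hjspec
  have hiter := pow_smul_sub_mem P hσ hP2 i hyi n
  have hσn' : ((σ : G) ^ n) = 1 := by
    have := congrArg (Subtype.val) hσn
    simpa using this
  rw [hσn', one_smul, sub_self, zero_sub, neg_mem_iff] at hiter
  have hmem : y * (n : B) ∈ P ^ (i + 1) := by rwa [mul_comm]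
  have hnP : (n : B) ∈ P := Ideal.mem_prime_of_mul_mem_pow hP hjspec hmem
  apply hn
  have := Ideal.Quotient.eq_zero_iff_mem.mpr hnP
  simpa using this

variable [FaithfulSMul G B]

theorem eq_one_of_mem_wild (hP : P ≠ ⊥) {σ : P.inertia G} (hσw : σ ∈ wild P) {n : ℕ}
    (hn : ((n : ℕ) : B ⧸ P) ≠ 0) (hσn : σ ^ n = 1) : σ = 1 := by
  apply Subtype.ext
  apply FaithfulSMul.eq_of_smul_eq_smul (α := B)
  intro x
  rw [smul_eq_of_mem_wild P hP hσw hn hσn x, Subgroup.coe_one, one_smul]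

variable [Finite G] (q : ℕ) [hq : Fact q.Prime] [CharP (B ⧸ P) q]

/-- **the wild inertia group is a `q`-group** -/
theorem isPGroup_wild (hP : P ≠ ⊥) : IsPGroup q (wild P : Subgroup (P.inertia G)) := by
  rintro ⟨σ, hσ⟩
  have hn0 : orderOf σ ≠ 0 := (orderOf_pos σ).ne'
  obtain ⟨a, m, hm, hnm⟩ := Nat.exists_eq_pow_mul_and_not_dvd hn0 q hq.1.ne_one
  refine ⟨a, ?_⟩
  apply Subtype.ext
  rw [Subgroup.coe_pow, Subgroup.coe_one]
  change σ ^ q ^ a = 1
  have hmem : σ ^ q ^ a ∈ wild P := Subgroup.pow_mem _ hσ _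
  have hm0 : ((m : ℕ) : B ⧸ P) ≠ 0 := by
    rw [Ne, CharP.cast_eq_zero_iff (B ⧸ P) q]
    exact hm
  have hpow : (σ ^ q ^ a) ^ m = 1 := by
    rw [← pow_mul, ← hnm]
    exact pow_orderOf_eq_one σ
  exact eq_one_of_mem_wild P hP hmem hm0 hpow

omit [FaithfulSMul G B] in
/-- **the tame quotient is cyclic** -/
theorem isCyclic_quotient_wild (hP : P ≠ ⊥) :
    haveI := normal_wild (G := G) P hP
    IsCyclic (P.inertia G ⧸ wild P) := by
  have := normal_wild (G := G) P hP
  obtain ⟨π, hπ, hπ2⟩ := exists_uniformizer P hP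
  have hle : wild P ≤ (tameChar G P hP hπ hπ2).ker := (wild_eq_ker P hP hπ hπ2).le
  refine isCyclic_of_injective_ringHom (QuotientGroup.lift (wild P) (tameChar G P hP hπ hπ2) hle) ?_
  rw [injective_iff_map_eq_one]
  intro x
  induction x using QuotientGroup.induction_on with
  | H σ =>
    intro h
    rw [QuotientGroup.lift_mk] at h
    rw [QuotientGroup.eq_one_iff, wild_eq_ker P hP hπ hπ2, MonoidHom.mem_ker]
    exact h

/-- **every `p`-group image of the inertia group, `p ≠ q`, is cyclic** -/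
theorem isCyclic_range_of_isPGroup (hP : P ≠ ⊥) {Γ : Type*} [Group Γ] {p : ℕ} [hp : Fact p.Prime]
    (hpq : p ≠ q) (f : P.inertia G →* Γ) (hf : IsPGroup p f.range) : IsCyclic f.range := by
  have := normal_wild (G := G) P hP
  have := isCyclic_quotient_wild (G := G) P hP
  have hle : wild P ≤ f.rangeRestrict.ker := by
    intro σ hσ
    rw [MonoidHom.mem_ker]
    obtain ⟨a, ha⟩ := isPGroup_wild P q hP ⟨σ, hσ⟩
    have ha' : σ ^ q ^ a = 1 := by
      have := congrArg Subtype.val ha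
      simpa using this
    obtain ⟨b, hb⟩ := hf (f.rangeRestrict σ)
    have h1 : orderOf (f.rangeRestrict σ) ∣ q ^ a := by
      apply orderOf_dvd_of_pow_eq_one
      rw [← map_pow, ha', map_one]
    have h2 : orderOf (f.rangeRestrict σ) ∣ p ^ b := orderOf_dvd_of_pow_eq_one hb
    have hcop : Nat.Coprime (q ^ a) (p ^ b) :=
      Nat.Coprime.pow _ _ ((Nat.coprime_primes hq.1 hp.1).mpr (Ne.symm hpq))
    have h3 : orderOf (f.rangeRestrict σ) = 1 := Nat.eq_one_of_dvd_coprimes hcop h1 h2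
    exact orderOf_eq_one_iff.mp h3
  refine isCyclic_of_surjective (QuotientGroup.lift (wild P) f.rangeRestrict hle) ?_
  intro y
  obtain ⟨σ, rfl⟩ := f.rangeRestrict_surjective y
  exact ⟨QuotientGroup.mk σ, QuotientGroup.lift_mk _ _ _⟩

/-- the same with an explicit generator -/
theorem exists_generator_of_isPGroup (hP : P ≠ ⊥) {Γ : Type*} [Group Γ] {p : ℕ}
    [hp : Fact p.Prime] (hpq : p ≠ q) (f : P.inertia G →* Γ) (hf : IsPGroup p f.range) :
    ∃ τ : P.inertia G, ∀ σ : P.inertia G, ∃ m : ℕ, f σ = f τ ^ m := by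
  have := isCyclic_range_of_isPGroup P q hP hpq f hf
  obtain ⟨⟨γ, τ, rfl⟩, hγ⟩ := IsCyclic.exists_generator (α := f.range)
  refine ⟨τ, fun σ => ?_⟩
  have h1 := hγ ⟨f σ, σ, rfl⟩
  have : Finite f.range := Finite.of_surjective _ f.rangeRestrict_surjective
  rw [← mem_powers_iff_mem_zpowers] at h1
  obtain ⟨m, hm⟩ := h1
  refine ⟨m, ?_⟩
  have := congrArg Subtype.val hm
  simpa using this.symm

universe v in
/-- **(W4')** homomorphisms defined on a group `I'` mapping to the inertia group: ONE `τ : I'`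
such that `f τ` generates the range of every `f : I' →* Γ` which is trivial on the kernel of
`r : I' →* P.inertia G` and whose range is a `p`-group, `p ≠ q`. -/
theorem exists_generator_of_hom (hP : P ≠ ⊥) {I' : Type*} [Group I'] (r : I' →* P.inertia G)
    {p : ℕ} (hp : p.Prime) (hpq : p ≠ q) :
    ∃ τ : I', ∀ (Γ : Type v) [Group Γ] (f : I' →* Γ), r.ker ≤ f.ker → IsPGroup p f.range →
      ∀ σ : I', ∃ m : ℕ, f σ = f τ ^ m := by
  have := normal_wild (G := G) P hP
  have := isCyclic_quotient_wild (G := G) P hP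
  exact exists_generator_of_factors_uniform (wild P) hq.1 hp hpq (isPGroup_wild P q hP) r

end Char

section Conj

variable {B : Type*} [CommRing B] [IsDedekindDomain B] {G : Type*} [Group G]
  [MulSemiringAction G B] (P : Ideal B) [P.IsPrime]

omit [IsDedekindDomain B] [P.IsPrime] in
theorem smul_mem_iff_of_mem_stabilizer {g : G} (hg : g ∈ MulAction.stabilizer G P) {x : B} :
    g • x ∈ P ↔ x ∈ P := by
  have h1 : g⁻¹ • P = P := by
    rw [inv_smul_eq_iff]
    exact (MulAction.mem_stabilizer_iff.mp hg).symm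
  conv_rhs => rw [← h1]
  rw [Ideal.mem_pointwise_smul_iff_inv_smul_mem, inv_inv]

omit [IsDedekindDomain B] [P.IsPrime] in
/-- the inertia group is normalised by the decomposition group -/
theorem conj_mem_inertia {g : G} (hg : g ∈ MulAction.stabilizer G P) (τ : P.inertia G) :
    g * (τ : G) * g⁻¹ ∈ P.inertia G := by
  intro x
  have e : (g * (τ : G) * g⁻¹) • x - x = g • ((τ : G) • (g⁻¹ • x) - g⁻¹ • x) := by
    rw [mul_smul, mul_smul, smul_sub, smul_inv_smul]
  change (g * (τ : G) * g⁻¹) • x - x ∈ P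
  rw [e, smul_mem_iff_of_mem_stabilizer P hg]
  exact τ.2 _

/-- the tame character does not depend on the uniformiser -/
theorem smul_sub_mul_mem_of_tameChar_eq (hP : P ≠ ⊥) {π : B} (hπ : π ∈ P) (hπ2 : π ∉ P ^ 2)
    (τ : P.inertia G) {d : B} (hd : tameChar G P hP hπ hπ2 τ = Ideal.Quotient.mk P d)
    {π' : B} (hπ' : π' ∈ P) : (τ : G) • π' - π' * d ∈ P ^ 2 := by
  have h0 := smul_sub_mul_tameChar_mem P hP hπ hπ2 τ hd
  obtain ⟨c, hc⟩ := exists_coeff P hP hπ hπ2 hπ'
  set e := π' - π * c with he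
  have e1 : (τ : G) • π' - π' * d = ((τ : G) • π - π * d) * ((τ : G) • c)
      + π * d * ((τ : G) • c - c) + ((τ : G) • e - e * d) := by
    have : π' = π * c + e := by rw [he]; ring
    rw [this, smul_add, smul_mul']
    ring
  rw [e1]
  refine Ideal.add_mem _ (Ideal.add_mem _ ?_ ?_) (Ideal.sub_mem _ ?_ ?_)
  · exact Ideal.mul_mem_right _ _ h0
  · have h5 : π * d * ((τ : G) • c - c) ∈ P * P :=
      Ideal.mul_mem_mul (Ideal.mul_mem_right _ _ hπ) (τ.2 c)
    rwa [← pow_two] at h5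
  · exact smul_mem_pow_of_mem_inertia P τ.2 2 hc
  · exact Ideal.mul_mem_right _ _ hc

/-- **(W5') equivariance of the tame character**: if `g` stabilises `P` and
`tameChar τ = d mod P`, then `tameChar (g τ g⁻¹) = g • d mod P`. -/
theorem tameChar_conj_mk (hP : P ≠ ⊥) {π : B} (hπ : π ∈ P) (hπ2 : π ∉ P ^ 2) {g : G}
    (hg : g ∈ MulAction.stabilizer G P) (τ : P.inertia G) {d : B}
    (hd : tameChar G P hP hπ hπ2 τ = Ideal.Quotient.mk P d) :
    tameChar G P hP hπ hπ2 ⟨g * (τ : G) * g⁻¹, conj_mem_inertia P hg τ⟩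
      = Ideal.Quotient.mk P (g • d) := by
  have hginv : g⁻¹ ∈ MulAction.stabilizer G P := inv_mem hg
  have hπ' : g⁻¹ • π ∈ P := (smul_mem_iff_of_mem_stabilizer P hginv).mpr hπ
  have h1 := smul_sub_mul_mem_of_tameChar_eq P hP hπ hπ2 τ hd hπ'
  have h2 : g • ((τ : G) • (g⁻¹ • π) - g⁻¹ • π * d) ∈ P ^ 2 :=
    smul_mem_pow_of_smul_mem P (fun x hx => (smul_mem_iff_of_mem_stabilizer P hg).mpr hx) 2 h1
  have e : g • ((τ : G) • (g⁻¹ • π) - g⁻¹ • π * d) = (g * (τ : G) * g⁻¹) • π - π * (g • d) := by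
    rw [smul_sub, smul_mul', smul_inv_smul, mul_smul, mul_smul]
  rw [e] at h2
  exact tameChar_eq P hP hπ hπ2 ⟨g * (τ : G) * g⁻¹, conj_mem_inertia P hg τ⟩ h2

/-- **Frobenius equivariance of the tame character**: if `g` stabilises `P` and induces
`x ↦ x ^ N` on `B ⧸ P`, then `tameChar (g τ g⁻¹) = tameChar τ ^ N`. -/
theorem tameChar_conj (hP : P ≠ ⊥) {π : B} (hπ : π ∈ P) (hπ2 : π ∉ P ^ 2) {g : G}
    (hg : g ∈ MulAction.stabilizer G P) (N : ℕ) (hN : ∀ x : B, g • x - x ^ N ∈ P)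
    (τ : P.inertia G) :
    tameChar G P hP hπ hπ2 ⟨g * (τ : G) * g⁻¹, conj_mem_inertia P hg τ⟩
      = tameChar G P hP hπ hπ2 τ ^ N := by
  obtain ⟨d, hd⟩ := Ideal.Quotient.mk_surjective (tameChar G P hP hπ hπ2 τ)
  rw [tameChar_conj_mk P hP hπ hπ2 hg τ hd.symm, ← hd, ← map_pow]
  exact Ideal.Quotient.eq.mpr (hN d)

/-- `g τ g⁻¹ τ⁻ᴺ` is wild -/
theorem conj_mul_inv_pow_mem_wild (hP : P ≠ ⊥) {g : G}
    (hg : g ∈ MulAction.stabilizer G P) (N : ℕ) (hN : ∀ x : B, g • x - x ^ N ∈ P)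
    (τ : P.inertia G) :
    (⟨g * (τ : G) * g⁻¹, conj_mem_inertia P hg τ⟩ : P.inertia G) * (τ ^ N)⁻¹ ∈ wild P := by
  obtain ⟨π, hπ, hπ2⟩ := exists_uniformizer P hP
  rw [wild_eq_ker P hP hπ hπ2, MonoidHom.mem_ker, map_mul, tameChar_conj P hP hπ hπ2 hg N hN τ,
    ← map_pow, ← map_mul, mul_inv_cancel, map_one]

end Conj

section Invariance

variable {B : Type*} [CommRing B] [IsDedekindDomain B] {G : Type*} [Group G]
  [MulSemiringAction G B] (P : Ideal B) [P.IsPrime]

/-- the ring endomorphism of `B ⧸ P` induced by an element of the stabiliser of `P` -/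
def resHom {g : G} (hg : g ∈ MulAction.stabilizer G P) : B ⧸ P →+* B ⧸ P :=
  Ideal.quotientMap P (MulSemiringAction.toRingHom G B g)
    (fun _ hx => (smul_mem_iff_of_mem_stabilizer P hg).mpr hx)

omit [IsDedekindDomain B] [P.IsPrime] in
theorem resHom_mk {g : G} (hg : g ∈ MulAction.stabilizer G P) (x : B) :
    resHom P hg (Ideal.Quotient.mk P x) = Ideal.Quotient.mk P (g • x) :=
  Ideal.quotientMap_mk

/-- `tameChar (g τ g⁻¹) = ḡ (tameChar τ)` -/
theorem tameChar_conj_resHom (hP : P ≠ ⊥) {π : B} (hπ : π ∈ P) (hπ2 : π ∉ P ^ 2) {g : G}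
    (hg : g ∈ MulAction.stabilizer G P) (τ : P.inertia G) :
    tameChar G P hP hπ hπ2 ⟨g * (τ : G) * g⁻¹, conj_mem_inertia P hg τ⟩
      = resHom P hg (tameChar G P hP hπ hπ2 τ) := by
  obtain ⟨d, hd⟩ := Ideal.Quotient.mk_surjective (tameChar G P hP hπ hπ2 τ)
  rw [tameChar_conj_mk P hP hπ hπ2 hg τ hd.symm, ← hd, resHom_mk]

variable (q : ℕ) [hq : Fact q.Prime] [CharP (B ⧸ P) q]

/-- a root of `X ^ q - X` in `B ⧸ P` is fixed by every ring endomorphism -/
theorem map_eq_of_pow_eq_self (hP : P ≠ ⊥) (φ : B ⧸ P →+* B ⧸ P) {x : B ⧸ P}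
    (hx : x ^ q = x) : φ x = x := by
  have hmax : P.IsMaximal := Ideal.IsPrime.isMaximal inferInstance hP
  let _ := Ideal.Quotient.field P
  have h1 : x ∈ (⊥ : Subfield (B ⧸ P)) := (Subfield.mem_bot_iff_pow_eq_self (B ⧸ P) q).mpr hx
  rw [mem_bot_iff_intCast q] at h1
  obtain ⟨n, rfl⟩ := h1
  exact map_intCast φ n

variable [Finite G]

/-- **(W6) invariance modulo `p` under the decomposition group when `p ∣ q - 1`**: for `g` in
the stabiliser of `P` and `τ` in the inertia group there is `a ≡ 1 mod p` such that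
`g τ g⁻¹ τ⁻ᵃ` is wild. -/
theorem exists_modEq_conj_mem_wild (hP : P ≠ ⊥) {p : ℕ} (hp : p.Prime) (hdvd : p ∣ q - 1)
    {g : G} (hg : g ∈ MulAction.stabilizer G P) (τ : P.inertia G) :
    ∃ a : ℕ, a ≡ 1 [MOD p] ∧
      (⟨g * (τ : G) * g⁻¹, conj_mem_inertia P hg τ⟩ : P.inertia G) * (τ ^ a)⁻¹ ∈ wild P := by
  obtain ⟨π, hπ, hπ2⟩ := exists_uniformizer P hP
  set χ := tameChar G P hP hπ hπ2 with hχ
  set ζ := χ τ with hζ
  have hfin : IsOfFinOrder ζ := χ.isOfFinOrder (isOfFinOrder_of_finite τ)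
  set e := orderOf ζ with he
  have he0 : e ≠ 0 := hfin.orderOf_pos.ne'
  have hprim : IsPrimitiveRoot ζ e := IsPrimitiveRoot.orderOf ζ
  have hconj : χ ⟨g * (τ : G) * g⁻¹, conj_mem_inertia P hg τ⟩ = resHom P hg ζ :=
    tameChar_conj_resHom P hP hπ hπ2 hg τ
  have h1 : (resHom P hg ζ) ^ e = 1 := by rw [← map_pow, he, pow_orderOf_eq_one, map_one]
  have : NeZero e := ⟨he0⟩
  obtain ⟨i, -, hζi⟩ := hprim.eq_pow_of_pow_eq_one h1
  -- find `a ≡ i mod e`, `a ≡ 1 mod p`
  obtain ⟨a, hae, hap⟩ : ∃ a : ℕ, a ≡ i [MOD e] ∧ a ≡ 1 [MOD p] := by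
    by_cases hpe : p ∣ e
    · refine ⟨i, Nat.ModEq.refl _, ?_⟩
      set ω := ζ ^ (e / p) with hω
      have hep0 : e / p ≠ 0 := by
        intro h0
        rw [Nat.div_eq_zero_iff] at h0
        rcases h0 with h0 | h0
        · exact hp.ne_zero h0
        · exact absurd (Nat.le_of_dvd (Nat.pos_of_ne_zero he0) hpe) (not_le.mpr h0)
      have hordω : orderOf ω = p := by
        rw [hω, orderOf_pow_of_dvd hep0 (Nat.div_dvd_of_dvd hpe), ← he, Nat.div_div_self hpe he0]
      have hωfin : IsOfFinOrder ω := hfin.pow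
      have hωq : ω ^ q = ω := by
        have h2 : ω ^ (q - 1) = 1 := orderOf_dvd_iff_pow_eq_one.mp (hordω ▸ hdvd)
        have h3 : q = (q - 1) + 1 := (Nat.sub_add_cancel hq.1.one_le).symm
        rw [h3, pow_succ, h2, one_mul]
      have hfix : resHom P hg ω = ω := map_eq_of_pow_eq_self P q hP _ hωq
      have h4 : ω ^ i = ω ^ 1 := by
        rw [pow_one]
        calc ω ^ i = (ζ ^ i) ^ (e / p) := by rw [hω, ← pow_mul, ← pow_mul, mul_comm]
          _ = (resHom P hg ζ) ^ (e / p) := by rw [hζi]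
          _ = resHom P hg ω := by rw [hω, map_pow]
          _ = ω := hfix
      rw [← hordω]
      exact hωfin.pow_eq_pow_iff_modEq.mp h4
    · have hcop : Nat.Coprime e p := ((Nat.Prime.coprime_iff_not_dvd hp).mpr hpe).symm
      exact ⟨Nat.chineseRemainder hcop i 1, (Nat.chineseRemainder hcop i 1).2.1,
        (Nat.chineseRemainder hcop i 1).2.2⟩
  refine ⟨a, hap, ?_⟩
  rw [wild_eq_ker P hP hπ hπ2, MonoidHom.mem_ker, map_mul, ← hχ, hconj, ← hζi]
  have h5 : ζ ^ i = ζ ^ a := hfin.pow_eq_pow_iff_modEq.mpr (he ▸ hae.symm)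
  rw [h5, hζ, ← map_pow, ← map_mul, mul_inv_cancel, map_one]

end Invariance

end Fermat.Agent.S56.Tame
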