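import Mathlib
import Fermat.Prelude.Def_FLTPrelim_Ramification
import Fermat.Prelude.Def_EllipticCurve_FrobeniusTrace
import Fermat.Agent.Lib.FrobeniusExists
import Fermat.Agent.CFT.LocalBridge.Inertia
import Fermat.Agent.S56.Tame.Wild

/-!
# S56, shared leaf: tame inertia in the language of the Prelude

`Ω / ℚ` an algebraic field extension (in the application `Ω = AlgebraicClosure ℚ`),
`A : ValuationSubring Ω` over the rational prime `q`, `I = A.inertiaSubgroupIn ℚ`,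
`F ⊆ Ω` a finite Galois subextension, `f : I →* Γ` a homomorphism which is trivial on
`I ∩ F.fixingSubgroup` and whose range is a `p`-group with `p ≠ q`.  Then

* `exists_generator_inertia`: the range of `f` is generated by one `f τ`
  (`∃ τ, ∀ σ, ∃ m, f σ = f τ ^ m`); `exists_generator_inertia_uniform`: `τ` depends only on `F`;
* `map_conj_eq_pow`: `f (φ τ φ⁻¹) = f τ ^ q` for every Frobenius element `φ` at `A`;
* `map_conj_eq_self`: `f (g τ g⁻¹) = f τ` for every `g` in the decomposition group of `A`, when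
  `Γ` has exponent `p` and `p ∣ q - 1`.

The proof restricts to `Gal(F/ℚ)` acting on `𝓞 F`, where `S56/Tame/Wild` applies to the centre
`centerAt A F` of `A` on `𝓞 F`.
-/

set_option autoImplicit false

namespace Fermat.Agent.S56.Tame

open NumberField Ideal
open scoped Pointwise

/-! ### the centre of a valuation subring on the ring of integers of a finite level -/

section Centre

variable {Ω : Type*} [Field Ω] [Algebra ℚ Ω] (A : ValuationSubring Ω)
  (F : IntermediateField ℚ Ω)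

/-- the inclusion `𝓞 F → Ω` -/
def incl : 𝓞 F →+* Ω := (algebraMap F Ω).comp (algebraMap (𝓞 F) F)

theorem incl_apply (x : 𝓞 F) : incl F x = ((x : F) : Ω) := rfl

theorem isIntegral_incl (x : 𝓞 F) : IsIntegral ℤ (incl F x) :=
  (RingOfIntegers.isIntegral_coe x).map ((algebraMap F Ω).toIntAlgHom)

theorem incl_mem (x : 𝓞 F) : incl F x ∈ A :=
  Fermat.Agent.Lib.FrobeniusExists.integral_mem A _ (isIntegral_incl F x)

/-- `𝓞 F → A` -/
def toVal : 𝓞 F →+* A := (incl F).codRestrict A.toSubring (incl_mem A F)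

/-- the centre of `A` on `𝓞 F` -/
def centerAt : Ideal (𝓞 F) := (IsLocalRing.maximalIdeal A).comap (toVal A F)

instance centerAt_isPrime : (centerAt A F).IsPrime := by
  unfold centerAt
  infer_instance

theorem mem_centerAt_iff (x : 𝓞 F) : x ∈ centerAt A F ↔ incl F x ∈ A.nonunits := by
  unfold centerAt
  rw [Ideal.mem_comap, ← ValuationSubring.coe_mem_nonunits_iff]
  rfl

variable {A} in
theorem natCast_mem_centerAt {q : ℕ} (hA : A.LiesOverPrime q) : ((q : ℕ) : 𝓞 F) ∈ centerAt A F := by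
  rw [mem_centerAt_iff, map_natCast]
  exact hA

variable {A} in
theorem centerAt_ne_bot {q : ℕ} (hq : q.Prime) (hA : A.LiesOverPrime q) : centerAt A F ≠ ⊥ := by
  intro h
  have h1 := natCast_mem_centerAt F hA
  rw [h, Ideal.mem_bot] at h1
  have : CharZero (𝓞 F) := inferInstance
  exact hq.ne_zero (by exact_mod_cast h1)

variable {A} in
theorem charP_quotient_centerAt {q : ℕ} (hq : q.Prime) (hA : A.LiesOverPrime q) :
    CharP (𝓞 F ⧸ centerAt A F) q := by
  have h0 : ((q : ℕ) : 𝓞 F ⧸ centerAt A F) = 0 := by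
    have := Ideal.Quotient.eq_zero_iff_mem.mpr (natCast_mem_centerAt F hA)
    simpa using this
  have h1 := ringChar.charP (𝓞 F ⧸ centerAt A F)
  rwa [CharP.ringChar_of_prime_eq_zero hq h0] at h1

end Centre

/-! ### the three facts at a finite Galois level, for an arbitrary `ℚ`-algebra structure -/

section Level

set_option linter.overlappingInstances false

variable (L : Type*) [Field L] [instA : Algebra ℚ L] [IsGalois ℚ L] [instM : Module ℚ L]
  [hfd : FiniteDimensional ℚ L] (W : Ideal (𝓞 L)) [W.IsPrime] {q : ℕ}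

/-- the hypotheses of `S56/Tame/Wild` at a finite Galois level -/
theorem level_facts (hq : q.Prime) (hqW : ((q : ℕ) : 𝓞 L) ∈ W) :
    ∃ _ : (wild W : Subgroup (W.inertia (L ≃ₐ[ℚ] L))).Normal,
      IsCyclic (W.inertia (L ≃ₐ[ℚ] L) ⧸ wild W) ∧
        IsPGroup q (wild W : Subgroup (W.inertia (L ≃ₐ[ℚ] L))) ∧ Finite (L ≃ₐ[ℚ] L) := by
  have : CharZero L := algebraRat.charZero L
  obtain rfl : instM = @Algebra.toModule ℚ L _ _ instA := Subsingleton.elim _ _
  obtain rfl : instA = DivisionRing.toRatAlgebra := Subsingleton.elim _ _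
  have : NumberField L := { to_charZero := inferInstance, to_finiteDimensional := inferInstance }
  have hne : W ≠ ⊥ := by
    intro h
    rw [h, Ideal.mem_bot] at hqW
    exact hq.ne_zero (by exact_mod_cast hqW)
  have hchar : CharP (𝓞 L ⧸ W) q := by
    have h0 : ((q : ℕ) : 𝓞 L ⧸ W) = 0 := by
      have := Ideal.Quotient.eq_zero_iff_mem.mpr hqW
      simpa using this
    have h1 := ringChar.charP (𝓞 L ⧸ W)
    rwa [CharP.ringChar_of_prime_eq_zero hq h0] at h1
  have : Fact q.Prime := ⟨hq⟩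
  have : FaithfulSMul (L ≃ₐ[ℚ] L) (𝓞 L) := IsGaloisGroup.faithful ℤ
  exact ⟨normal_wild (G := L ≃ₐ[ℚ] L) W hne, isCyclic_quotient_wild (G := L ≃ₐ[ℚ] L) W hne,
    isPGroup_wild W q hne, inferInstance⟩

/-- `g τ g⁻¹ τ⁻ᴺ` is wild, at a finite Galois level -/
theorem level_conj (hq : q.Prime) (hqW : ((q : ℕ) : 𝓞 L) ∈ W) {g : L ≃ₐ[ℚ] L}
    (hg : g ∈ MulAction.stabilizer (L ≃ₐ[ℚ] L) W) (N : ℕ) (hN : ∀ x : 𝓞 L, g • x - x ^ N ∈ W)
    (τ : W.inertia (L ≃ₐ[ℚ] L)) :
    (⟨g * (τ : L ≃ₐ[ℚ] L) * g⁻¹, conj_mem_inertia W hg τ⟩ : W.inertia (L ≃ₐ[ℚ] L)) * (τ ^ N)⁻¹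
      ∈ wild W := by
  have : CharZero L := algebraRat.charZero L
  obtain rfl : instM = @Algebra.toModule ℚ L _ _ instA := Subsingleton.elim _ _
  obtain rfl : instA = DivisionRing.toRatAlgebra := Subsingleton.elim _ _
  have : NumberField L := { to_charZero := inferInstance, to_finiteDimensional := inferInstance }
  have hne : W ≠ ⊥ := by
    intro h
    rw [h, Ideal.mem_bot] at hqW
    exact hq.ne_zero (by exact_mod_cast hqW)
  exact conj_mul_inv_pow_mem_wild W hne hg N hN τ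

/-- `g τ g⁻¹ τ⁻ᵃ` is wild for some `a ≡ 1 mod p`, at a finite Galois level, when `p ∣ q - 1` -/
theorem level_conj_modEq (hq : q.Prime) (hqW : ((q : ℕ) : 𝓞 L) ∈ W) {p : ℕ} (hp : p.Prime)
    (hdvd : p ∣ q - 1) {g : L ≃ₐ[ℚ] L}
    (hg : g ∈ MulAction.stabilizer (L ≃ₐ[ℚ] L) W) (τ : W.inertia (L ≃ₐ[ℚ] L)) :
    ∃ a : ℕ, a ≡ 1 [MOD p] ∧
      (⟨g * (τ : L ≃ₐ[ℚ] L) * g⁻¹, conj_mem_inertia W hg τ⟩ : W.inertia (L ≃ₐ[ℚ] L))
        * (τ ^ a)⁻¹ ∈ wild W := by
  have : CharZero L := algebraRat.charZero L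
  obtain rfl : instM = @Algebra.toModule ℚ L _ _ instA := Subsingleton.elim _ _
  obtain rfl : instA = DivisionRing.toRatAlgebra := Subsingleton.elim _ _
  have : NumberField L := { to_charZero := inferInstance, to_finiteDimensional := inferInstance }
  have hne : W ≠ ⊥ := by
    intro h
    rw [h, Ideal.mem_bot] at hqW
    exact hq.ne_zero (by exact_mod_cast hqW)
  have hchar : CharP (𝓞 L ⧸ W) q := by
    have h0 : ((q : ℕ) : 𝓞 L ⧸ W) = 0 := by
      have := Ideal.Quotient.eq_zero_iff_mem.mpr hqW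
      simpa using this
    have h1 := ringChar.charP (𝓞 L ⧸ W)
    rwa [CharP.ringChar_of_prime_eq_zero hq h0] at h1
  have : Fact q.Prime := ⟨hq⟩
  exact exists_modEq_conj_mem_wild W q hne hp hdvd hg τ

end Level

/-! ### restriction of the inertia group to a finite Galois level -/

section Restrict

variable {Ω : Type*} [Field Ω] [Algebra ℚ Ω] (A : ValuationSubring Ω)
  (F : IntermediateField ℚ Ω) [IsGalois ℚ F]

theorem incl_restrictNormalHom_smul (σ : Ω ≃ₐ[ℚ] Ω) (x : 𝓞 F) :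
    incl F (AlgEquiv.restrictNormalHom F σ • x) = σ (incl F x) := by
  rw [incl_apply, incl_apply]
  exact AlgEquiv.restrictNormal_commutes σ F (x : F)

/-- the restriction of an inertia element of `A` is an inertia element of the centre -/
theorem restrict_mem_inertia {σ : Ω ≃ₐ[ℚ] Ω} (hσ : σ ∈ A.inertiaSubgroupIn ℚ) :
    AlgEquiv.restrictNormalHom F σ ∈ (centerAt A F).inertia (F ≃ₐ[ℚ] F) := by
  intro x
  change AlgEquiv.restrictNormalHom F σ • x - x ∈ centerAt A F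
  rw [mem_centerAt_iff, map_sub, incl_restrictNormalHom_smul]
  exact ((Fermat.Agent.CFT.LocalBridge.mem_inertiaSubgroupIn_iff A σ).mp hσ).2 _ (incl_mem A F x)

/-- the restriction of an element of the decomposition group stabilises the centre -/
theorem restrict_mem_stabilizer {σ : Ω ≃ₐ[ℚ] Ω} (hσ : σ ∈ A.decompositionSubgroup ℚ) :
    AlgEquiv.restrictNormalHom F σ ∈ MulAction.stabilizer (F ≃ₐ[ℚ] F) (centerAt A F) := by
  have hσA : σ • A = A := hσ
  have key : ∀ τ : Ω ≃ₐ[ℚ] Ω, τ • A = A → ∀ x ∈ centerAt A F,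
      AlgEquiv.restrictNormalHom F τ • x ∈ centerAt A F := by
    intro τ hτ x hx
    rw [mem_centerAt_iff] at hx ⊢
    rw [incl_restrictNormalHom_smul]
    have h1 : τ (incl F x) ∈ (τ • A).nonunits := by
      rw [Fermat.Agent.CFT.LocalBridge.smul_nonunits_iff]
      simpa using hx
    rwa [hτ] at h1
  rw [MulAction.mem_stabilizer_iff]
  apply le_antisymm
  · intro y hy
    rw [Ideal.mem_pointwise_smul_iff_inv_smul_mem] at hy
    have h2 := key σ hσA _ hy
    rwa [smul_inv_smul] at h2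
  · intro y hy
    rw [Ideal.mem_pointwise_smul_iff_inv_smul_mem, ← map_inv]
    exact key σ⁻¹ (by rw [inv_smul_eq_iff, hσA]) y hy

/-- restriction `I_A →* I_W` -/
noncomputable def restrictInertia : A.inertiaSubgroupIn ℚ →* (centerAt A F).inertia (F ≃ₐ[ℚ] F) :=
  ((AlgEquiv.restrictNormalHom F).comp (A.inertiaSubgroupIn ℚ).subtype).codRestrict _
    (fun σ => restrict_mem_inertia A F σ.2)

theorem coe_restrictInertia (σ : A.inertiaSubgroupIn ℚ) :
    (restrictInertia A F σ : F ≃ₐ[ℚ] F) = AlgEquiv.restrictNormalHom F (σ : Ω ≃ₐ[ℚ] Ω) := rfl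

theorem ker_restrictInertia_le {Γ : Type*} [Group Γ] (f : A.inertiaSubgroupIn ℚ →* Γ)
    (hF : ∀ σ : A.inertiaSubgroupIn ℚ, (σ : Ω ≃ₐ[ℚ] Ω) ∈ F.fixingSubgroup → f σ = 1) :
    (restrictInertia A F).ker ≤ f.ker := by
  intro σ hσ
  rw [MonoidHom.mem_ker] at hσ ⊢
  apply hF
  rw [IntermediateField.mem_fixingSubgroup_iff]
  intro x hx
  have h1 : AlgEquiv.restrictNormalHom F (σ : Ω ≃ₐ[ℚ] Ω) = 1 := by
    rw [← coe_restrictInertia, hσ]
    rfl
  have h2 := AlgEquiv.restrictNormal_commutes (σ : Ω ≃ₐ[ℚ] Ω) F ⟨x, hx⟩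
  have h3 : (σ : Ω ≃ₐ[ℚ] Ω).restrictNormal F = AlgEquiv.restrictNormalHom F (σ : Ω ≃ₐ[ℚ] Ω) := rfl
  rw [h3, h1] at h2
  exact h2.symm

variable {A}

universe v in
/-- **every `p`-group image of the inertia group at `q ≠ p` which factors through the finite
level `F` is generated by the image of ONE `τ`, independent of the homomorphism** -/
theorem exists_generator_inertia_uniform [FiniteDimensional ℚ F] {q : ℕ} (hq : q.Prime)
    (hA : A.LiesOverPrime q) {p : ℕ} (hp : p.Prime) (hpq : p ≠ q) :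
    ∃ τ : A.inertiaSubgroupIn ℚ, ∀ (Γ : Type v) [Group Γ] (f : A.inertiaSubgroupIn ℚ →* Γ),
      (∀ σ : A.inertiaSubgroupIn ℚ, (σ : Ω ≃ₐ[ℚ] Ω) ∈ F.fixingSubgroup → f σ = 1) →
      IsPGroup p f.range → ∀ σ : A.inertiaSubgroupIn ℚ, ∃ m : ℕ, f σ = f τ ^ m := by
  obtain ⟨hnorm, hcyc, hpg, hfin⟩ := level_facts F (centerAt A F) hq (natCast_mem_centerAt F hA)
  obtain ⟨τ, hτ⟩ := exists_generator_of_factors_uniform (wild (centerAt A F)) hq hp hpq hpg
    (restrictInertia A F)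
  exact ⟨τ, fun Γ _ f hF hf => hτ Γ f (ker_restrictInertia_le A F f hF) hf⟩

/-- **every `p`-group image of the inertia group at `q ≠ p` which factors through a finite
level is generated by one element** -/
theorem exists_generator_inertia [FiniteDimensional ℚ F] {q : ℕ} (hq : q.Prime)
    (hA : A.LiesOverPrime q)
    {Γ : Type*} [Group Γ] {p : ℕ} (hp : p.Prime) (hpq : p ≠ q)
    (f : A.inertiaSubgroupIn ℚ →* Γ)
    (hF : ∀ σ : A.inertiaSubgroupIn ℚ, (σ : Ω ≃ₐ[ℚ] Ω) ∈ F.fixingSubgroup → f σ = 1)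
    (hf : IsPGroup p f.range) :
    ∃ τ : A.inertiaSubgroupIn ℚ, ∀ σ : A.inertiaSubgroupIn ℚ, ∃ m : ℕ, f σ = f τ ^ m := by
  obtain ⟨τ, hτ⟩ := exists_generator_inertia_uniform F hq hA hp hpq
  exact ⟨τ, hτ Γ f hF hf⟩

/-- a Frobenius element normalises the inertia group -/
theorem conj_mem_inertiaSubgroupIn {φ : Ω ≃ₐ[ℚ] Ω} (hφ : φ ∈ A.decompositionSubgroup ℚ)
    (τ : A.inertiaSubgroupIn ℚ) : φ * (τ : Ω ≃ₐ[ℚ] Ω) * φ⁻¹ ∈ A.inertiaSubgroupIn ℚ := by
  have h1 : (τ : Ω ≃ₐ[ℚ] Ω) ∈ (φ⁻¹ • A).inertiaSubgroupIn ℚ := by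
    have h2 : φ⁻¹ • A = A := by
      rw [inv_smul_eq_iff]
      exact (show φ • A = A from hφ).symm
    rw [h2]
    exact τ.2
  have h3 := (Fermat.Agent.CFT.LocalBridge.mem_inertiaSubgroupIn_smul_iff A φ⁻¹
    (τ : Ω ≃ₐ[ℚ] Ω)).mp h1
  simpa using h3

/-- **`f (φ τ φ⁻¹) = f τ ^ q`** for a Frobenius element `φ` at `A` -/
theorem map_conj_eq_pow [FiniteDimensional ℚ F] {q : ℕ} (hq : q.Prime)
    (hA : A.LiesOverPrime q)
    {Γ : Type*} [Group Γ] {p : ℕ} (hp : p.Prime) (hpq : p ≠ q)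
    (f : A.inertiaSubgroupIn ℚ →* Γ)
    (hF : ∀ σ : A.inertiaSubgroupIn ℚ, (σ : Ω ≃ₐ[ℚ] Ω) ∈ F.fixingSubgroup → f σ = 1)
    (hf : IsPGroup p f.range) {φ : Ω ≃ₐ[ℚ] Ω} (hφ : A.IsFrobeniusAt φ q)
    (τ : A.inertiaSubgroupIn ℚ) :
    f ⟨φ * (τ : Ω ≃ₐ[ℚ] Ω) * φ⁻¹, conj_mem_inertiaSubgroupIn hφ.mem_decompositionSubgroup τ⟩
      = f τ ^ q := by
  obtain ⟨hnorm, hcyc, hpg, hfin⟩ := level_facts F (centerAt A F) hq (natCast_mem_centerAt F hA)
  set g : F ≃ₐ[ℚ] F := AlgEquiv.restrictNormalHom F φ with hg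
  have hgst : g ∈ MulAction.stabilizer (F ≃ₐ[ℚ] F) (centerAt A F) :=
    restrict_mem_stabilizer A F hφ.mem_decompositionSubgroup
  have hN : ∀ x : 𝓞 F, g • x - x ^ q ∈ centerAt A F := by
    intro x
    rw [mem_centerAt_iff, map_sub, map_pow, hg, incl_restrictNormalHom_smul]
    obtain ⟨hdec, hfr⟩ := hφ
    have h1 := hfr (IsLocalRing.residue A ⟨incl F x, incl_mem A F x⟩)
    rw [← IsLocalRing.ResidueField.residue_smul, ← map_pow, ← sub_eq_zero, ← map_sub,
      IsLocalRing.residue_eq_zero_iff, ← A.coe_mem_nonunits_iff] at h1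
    exact h1
  have hw := level_conj F (centerAt A F) hq (natCast_mem_centerAt F hA) hgst q hN
    (restrictInertia A F τ)
  set c : A.inertiaSubgroupIn ℚ :=
    ⟨φ * (τ : Ω ≃ₐ[ℚ] Ω) * φ⁻¹, conj_mem_inertiaSubgroupIn hφ.mem_decompositionSubgroup τ⟩ with hc
  have hρ : restrictInertia A F (c * (τ ^ q)⁻¹) ∈ wild (centerAt A F) := by
    have e : restrictInertia A F (c * (τ ^ q)⁻¹)
        = (⟨g * (restrictInertia A F τ : F ≃ₐ[ℚ] F) * g⁻¹,
            conj_mem_inertia (centerAt A F) hgst (restrictInertia A F τ)⟩ :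
              (centerAt A F).inertia (F ≃ₐ[ℚ] F)) * (restrictInertia A F τ ^ q)⁻¹ := by
      rw [map_mul, map_inv, map_pow]
      congr 1
      apply Subtype.ext
      rw [coe_restrictInertia, hc]
      simp only [map_mul, map_inv, hg, coe_restrictInertia]
    rw [e]
    exact hw
  have h1 := map_eq_one_of_mem (wild (centerAt A F)) hq hp hpq hpg (restrictInertia A F) f
    (ker_restrictInertia_le A F f hF) hf hρ
  rw [map_mul, map_inv, map_pow, mul_inv_eq_one] at h1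
  exact h1

/-- **`f (g τ g⁻¹) = f τ`** for every `g` in the decomposition group, when `Γ` has exponent `p`
and `p ∣ q - 1` -/
theorem map_conj_eq_self [FiniteDimensional ℚ F] {q : ℕ} (hq : q.Prime)
    (hA : A.LiesOverPrime q)
    {Γ : Type*} [Group Γ] {p : ℕ} (hp : p.Prime) (hdvd : p ∣ q - 1)
    (f : A.inertiaSubgroupIn ℚ →* Γ)
    (hF : ∀ σ : A.inertiaSubgroupIn ℚ, (σ : Ω ≃ₐ[ℚ] Ω) ∈ F.fixingSubgroup → f σ = 1)
    (hexp : ∀ x : Γ, x ^ p = 1) {g : Ω ≃ₐ[ℚ] Ω} (hg : g ∈ A.decompositionSubgroup ℚ)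
    (τ : A.inertiaSubgroupIn ℚ) :
    f ⟨g * (τ : Ω ≃ₐ[ℚ] Ω) * g⁻¹, conj_mem_inertiaSubgroupIn hg τ⟩ = f τ := by
  have hpq : p ≠ q := by
    intro h
    have h1 : q ≤ q - 1 := Nat.le_of_dvd (Nat.sub_pos_of_lt hq.one_lt) (h ▸ hdvd)
    have := hq.one_lt
    omega
  have hf : IsPGroup p f.range := isPGroup_of_forall_pow_eq_one hexp _
  obtain ⟨hnorm, hcyc, hpg, hfin⟩ := level_facts F (centerAt A F) hq (natCast_mem_centerAt F hA)
  set g' : F ≃ₐ[ℚ] F := AlgEquiv.restrictNormalHom F g with hg'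
  have hgst : g' ∈ MulAction.stabilizer (F ≃ₐ[ℚ] F) (centerAt A F) :=
    restrict_mem_stabilizer A F hg
  obtain ⟨a, ha, hw⟩ := level_conj_modEq F (centerAt A F) hq (natCast_mem_centerAt F hA) hp hdvd
    hgst (restrictInertia A F τ)
  set c : A.inertiaSubgroupIn ℚ :=
    ⟨g * (τ : Ω ≃ₐ[ℚ] Ω) * g⁻¹, conj_mem_inertiaSubgroupIn hg τ⟩ with hc
  have hρ : restrictInertia A F (c * (τ ^ a)⁻¹) ∈ wild (centerAt A F) := by
    have e : restrictInertia A F (c * (τ ^ a)⁻¹)
        = (⟨g' * (restrictInertia A F τ : F ≃ₐ[ℚ] F) * g'⁻¹,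
            conj_mem_inertia (centerAt A F) hgst (restrictInertia A F τ)⟩ :
              (centerAt A F).inertia (F ≃ₐ[ℚ] F)) * (restrictInertia A F τ ^ a)⁻¹ := by
      rw [map_mul, map_inv, map_pow]
      congr 1
      apply Subtype.ext
      rw [coe_restrictInertia, hc]
      simp only [map_mul, map_inv, hg', coe_restrictInertia]
    rw [e]
    exact hw
  have h1 := map_eq_one_of_mem (wild (centerAt A F)) hq hp hpq hpg (restrictInertia A F) f
    (ker_restrictInertia_le A F f hF) hf hρ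
  rw [map_mul, map_inv, map_pow, mul_inv_eq_one] at h1
  rw [h1]
  -- `a ≡ 1 mod p` and `f τ ^ p = 1`
  have ha1 : 1 ≤ a := by
    rcases Nat.eq_zero_or_pos a with h0 | h0
    · exfalso
      rw [h0] at ha
      have h2 : p ∣ 1 := (Nat.modEq_zero_iff_dvd.mp ha.symm)
      exact hp.one_lt.ne' (Nat.dvd_one.mp h2)
    · exact h0
  obtain ⟨k, hk⟩ := (Nat.modEq_iff_dvd' ha1).mp ha.symm
  have ha2 : a = 1 + p * k := by omega
  rw [ha2, pow_add, pow_one, pow_mul, hexp, one_pow, mul_one]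

end Restrict

end Fermat.Agent.S56.Tame
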