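/-
PROJECT T (S56), leaf (W-glob) for block (a3) (helper24, asked by helper16 #4135 (2)):
THE WILD / TAME / UNRAMIFIED CHAIN OF A DECOMPOSITION GROUP IN A FINITE QUOTIENT.

For a homomorphism `r : GQ →* A` to a finite group which is trivial on a finite level, the image
`D̄ = r(D_q)` of the decomposition group at `q` contains a `q`-subgroup `W` normalised by `D̄`
(image of wild inertia) and elements `τ` (tame generator), `φ` (Frobenius lift) such that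
`g τ g⁻¹ ∈ W ⊔ ⟨τ⟩` for `g ∈ D̄` and `D̄ ≤ ⟨W, τ, φ⟩`.

* `exists_chain`: the group theory (two homomorphisms to cyclic groups);
* `conj_mem_wild`: the wild inertia group is normalised by the decomposition group;
* `level_stab`: the decomposition group modulo inertia is cyclic, at a finite Galois level;
* `exists_wild_tame_chain`: the statement.
-/
import Fermat.Agent.S56.Tame.Global
import Fermat.Agent.S56.Coh.Defs

set_option autoImplicit false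

namespace Fermat.Agent.S56.Tame.Chain

open Ideal Fermat.Agent.S56.Tame
open scoped Pointwise

/-! ### the group theory -/

section Group

variable {Γ : Type*} [Group Γ]

/-- the image of a homomorphism to a cyclic group is generated by the image of one element -/
theorem exists_generator_range {H C : Type*} [Group H] [Group C] [IsCyclic C] (f : H →* C) :
    ∃ h : H, ∀ x : H, ∃ n : ℤ, f x = f h ^ n := by
  obtain ⟨⟨c, hc⟩, hgen⟩ := IsCyclic.exists_generator (α := f.range)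
  obtain ⟨h, rfl⟩ := hc
  refine ⟨h, fun x => ?_⟩
  obtain ⟨n, hn⟩ := Subgroup.mem_zpowers_iff.1 (hgen ⟨f x, x, rfl⟩)
  refine ⟨n, ?_⟩
  have := congrArg Subtype.val hn
  simpa using this.symm

/-- **the chain**: if `D / (D ⊓ I)` and `(D ⊓ I) / (D ⊓ W)` embed into cyclic groups and `D`
normalises `I`, then `D` is generated by `D ⊓ W` and two elements `τ ∈ D ⊓ I`, `φ ∈ D`, and the
conjugates of `τ` under `D` lie in `(D ⊓ W) ⟨τ⟩`. -/
theorem exists_chain (D I W : Subgroup Γ) (hnI : ∀ g ∈ D, ∀ x ∈ I, g * x * g⁻¹ ∈ I)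
    {C₁ C₂ : Type*} [Group C₁] [IsCyclic C₁] [Group C₂] [IsCyclic C₂]
    (f₁ : D →* C₁) (h₁ : ∀ x : D, f₁ x = 1 ↔ (x : Γ) ∈ I)
    (f₂ : ↥(D ⊓ I) →* C₂) (h₂ : ∀ x : ↥(D ⊓ I), f₂ x = 1 ↔ (x : Γ) ∈ W) :
    ∃ τ ∈ D ⊓ I, ∃ φ ∈ D,
      (∀ g ∈ D, ∃ m : ℤ, g * τ * g⁻¹ * (τ ^ m)⁻¹ ∈ D ⊓ W) ∧
      ∀ x ∈ D, ∃ n m : ℤ, x * (φ ^ n)⁻¹ * (τ ^ m)⁻¹ ∈ D ⊓ W := by
  obtain ⟨φ, hφ⟩ := exists_generator_range f₁
  obtain ⟨τ, hτ⟩ := exists_generator_range f₂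
  -- an element of `D ⊓ I` is `τ ^ m` modulo `D ⊓ W`
  have key : ∀ y : ↥(D ⊓ I), ∃ m : ℤ, (y : Γ) * ((τ : Γ) ^ m)⁻¹ ∈ D ⊓ W := by
    intro y
    obtain ⟨m, hm⟩ := hτ y
    refine ⟨m, ?_⟩
    have h3 : f₂ (y * (τ ^ m)⁻¹) = 1 := by
      rw [map_mul, map_inv, map_zpow, hm, mul_inv_cancel]
    have h4 := (h₂ _).1 h3
    refine ⟨?_, ?_⟩
    · have := (y * (τ ^ m)⁻¹).2.1
      simpa using this
    · simpa using h4
  refine ⟨τ, τ.2, φ, φ.2, fun g hg => ?_, fun x hx => ?_⟩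
  · exact key ⟨g * τ * g⁻¹, D.mul_mem (D.mul_mem hg τ.2.1) (D.inv_mem hg), hnI g hg τ τ.2.2⟩
  · obtain ⟨n, hn⟩ := hφ ⟨x, hx⟩
    have h3 : f₁ (⟨x, hx⟩ * (φ ^ n)⁻¹) = 1 := by
      rw [map_mul, map_inv, map_zpow, hn, mul_inv_cancel]
    have h4 := (h₁ _).1 h3
    have h5 : x * ((φ : Γ) ^ n)⁻¹ ∈ D := by
      have := (⟨x, hx⟩ * (φ ^ n)⁻¹ : D).2
      simpa using this
    obtain ⟨m, hm⟩ := key ⟨x * ((φ : Γ) ^ n)⁻¹, h5, by simpa using h4⟩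
    exact ⟨n, m, hm⟩

end Group

/-! ### the wild inertia group is normalised by the decomposition group -/

section ConjWild

variable {B : Type*} [CommRing B] {G : Type*} [Group G] [MulSemiringAction G B] (P : Ideal B)

theorem conj_mem_wild {g : G} (hg : g ∈ MulAction.stabilizer G P) (σ : P.inertia G)
    (hσ : σ ∈ wild P) :
    (⟨g * (σ : G) * g⁻¹, conj_mem_inertia P hg σ⟩ : P.inertia G) ∈ wild P := by
  intro x hx
  have hginv : g⁻¹ ∈ MulAction.stabilizer G P := inv_mem hg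
  have hx' : g⁻¹ • x ∈ P := (smul_mem_iff_of_mem_stabilizer P hginv).mpr hx
  have h1 := hσ _ hx'
  have h2 : g • ((σ : G) • (g⁻¹ • x) - g⁻¹ • x) ∈ P ^ 2 :=
    smul_mem_pow_of_smul_mem P (fun y hy => (smul_mem_iff_of_mem_stabilizer P hg).mpr hy) 2 h1
  have e : g • ((σ : G) • (g⁻¹ • x) - g⁻¹ • x) = (g * (σ : G) * g⁻¹) • x - x := by
    rw [smul_sub, smul_inv_smul, mul_smul, mul_smul]
  rw [e] at h2
  exact h2

end ConjWild

/-! ### decomposition modulo inertia is cyclic, at a finite Galois level -/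

section Level

set_option linter.overlappingInstances false

open NumberField

universe u

variable (L : Type u) [Field L] [instA : Algebra ℚ L] [IsGalois ℚ L] [instM : Module ℚ L]
  [hfd : FiniteDimensional ℚ L] (W : Ideal (𝓞 L)) [W.IsPrime] {q : ℕ}

/-- the decomposition group modulo the inertia group embeds into a cyclic group -/
theorem level_stab (hq : q.Prime) (hqW : ((q : ℕ) : 𝓞 L) ∈ W) :
    ∃ (C : Type u) (_ : Group C) (_ : IsCyclic C)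
      (f : MulAction.stabilizer (L ≃ₐ[ℚ] L) W →* C),
      ∀ g : MulAction.stabilizer (L ≃ₐ[ℚ] L) W,
        f g = 1 ↔ (g : L ≃ₐ[ℚ] L) ∈ W.inertia (L ≃ₐ[ℚ] L) := by
  have : CharZero L := algebraRat.charZero L
  obtain rfl : instM = @Algebra.toModule ℚ L _ _ instA := Subsingleton.elim _ _
  obtain rfl : instA = DivisionRing.toRatAlgebra := Subsingleton.elim _ _
  have : NumberField L := { to_charZero := inferInstance, to_finiteDimensional := inferInstance }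
  have hne : W ≠ ⊥ := by
    intro h
    rw [h, Ideal.mem_bot] at hqW
    exact hq.ne_zero (by exact_mod_cast hqW)
  have hmax : W.IsMaximal := Ideal.IsPrime.isMaximal inferInstance hne
  have : Finite (𝓞 L ⧸ W) := Ideal.finiteQuotientOfFreeOfNeBot W hne
  let _ : Field (ℤ ⧸ W.under ℤ) := Ideal.Quotient.field _
  let _ : Field (𝓞 L ⧸ W) := Ideal.Quotient.field _
  refine ⟨(𝓞 L ⧸ W) ≃ₐ[ℤ ⧸ W.under ℤ] (𝓞 L ⧸ W), inferInstance, inferInstance,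
    Ideal.Quotient.stabilizerHom W (W.under ℤ) (L ≃ₐ[ℚ] L), fun g => ?_⟩
  rw [← MonoidHom.mem_ker, Ideal.Quotient.ker_stabilizerHom]
  rfl

end Level

/-! ### the chain in a finite quotient of `GQ` -/

section Main

open Fermat.Agent.CFT.Bridge Fermat.Agent.CFT.LocalBridge Fermat.Agent.S56.Coh NumberField

local instance isAlgebraicQbar_ch : Algebra.IsAlgebraic ℚ (AlgebraicClosure ℚ) :=
  AlgebraicClosure.isAlgebraic ℚ
local instance isAlgClosureQbar_ch : IsAlgClosure ℚ (AlgebraicClosure ℚ) :=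
  ⟨inferInstance, inferInstance⟩
local instance normalQbar_ch : Normal ℚ (AlgebraicClosure ℚ) :=
  IsAlgClosure.normal ℚ (AlgebraicClosure ℚ)

/-- the normal closure of `F` in `ℚ̄` is normal -/
theorem normal_nc (F : IntermediateField ℚ Qbar) : Normal ℚ (nc F) := by
  have h1 := IntermediateField.normalClosure_def'' (F := ℚ) (L := Qbar) F
  unfold nc
  rw [← h1]
  exact normalClosure.normal ℚ F Qbar

section AtLevel

variable {Ω : Type*} [Field Ω] [Algebra ℚ Ω] (A₀ : ValuationSubring Ω)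
  (L : IntermediateField ℚ Ω) [IsGalois ℚ L] [FiniteDimensional ℚ L]


/-- the chain for a homomorphism which factors through a finite Galois level `L` -/
theorem chain_of_level {q : ℕ} (hq : q.Prime) (hA₀ : A₀.LiesOverPrime q) {A : Type*} [Group A]
    (r : (Ω ≃ₐ[ℚ] Ω) →* A) (hLker : L.fixingSubgroup ≤ r.ker) :
    ∃ (W : Subgroup A) (tau phi : A), IsPGroup q W ∧ W ≤ (A₀.decompositionSubgroup ℚ).map r ∧
      tau ∈ (A₀.decompositionSubgroup ℚ).map r ∧ phi ∈ (A₀.decompositionSubgroup ℚ).map r ∧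
      (∀ g ∈ (A₀.decompositionSubgroup ℚ).map r, ∀ w ∈ W, g * w * g⁻¹ ∈ W) ∧
      (∀ g ∈ (A₀.decompositionSubgroup ℚ).map r, g * tau * g⁻¹ ∈ W ⊔ Subgroup.zpowers tau) ∧
      (A₀.decompositionSubgroup ℚ).map r ≤ Subgroup.closure ((W : Set A) ∪ {tau, phi}) := by
  have hqP := natCast_mem_centerAt (A := A₀) L hA₀
  obtain ⟨hnorm, hcyc, hpg, -⟩ := level_facts L (centerAt A₀ L) hq hqP
  obtain ⟨C, hCg, hCc, f, hf⟩ := level_stab L (centerAt A₀ L) hq hqP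
  have hstab : ∀ x ∈ A₀.decompositionSubgroup ℚ, (AlgEquiv.restrictNormalHom (F := ℚ) (K₁ := Ω) ↥L) x ∈ MulAction.stabilizer (↥L ≃ₐ[ℚ] ↥L) (centerAt A₀ L) :=
    fun x hx => restrict_mem_stabilizer A₀ L hx
  have hresker : ∀ x : Ω ≃ₐ[ℚ] Ω, (AlgEquiv.restrictNormalHom (F := ℚ) (K₁ := Ω) ↥L) x = 1 → r x = 1 := fun x hx => by
    refine hLker ?_
    rw [IntermediateField.mem_fixingSubgroup_iff]
    intro a ha
    have h2 := AlgEquiv.restrictNormal_commutes x L ⟨a, ha⟩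
    have h3 : x.restrictNormal L = (AlgEquiv.restrictNormalHom (F := ℚ) (K₁ := Ω) ↥L) x := rfl
    rw [h3, hx] at h2
    exact h2.symm
  -- the three subgroups of the big Galois group
  obtain ⟨D, hD⟩ : ∃ D : Subgroup (Ω ≃ₐ[ℚ] Ω), D = A₀.decompositionSubgroup ℚ := ⟨_, rfl⟩
  obtain ⟨I', hI'⟩ : ∃ I' : Subgroup (Ω ≃ₐ[ℚ] Ω), I' = ((centerAt A₀ L).inertia (↥L ≃ₐ[ℚ] ↥L)).comap (AlgEquiv.restrictNormalHom (F := ℚ) (K₁ := Ω) ↥L) := ⟨_, rfl⟩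
  obtain ⟨W', hW'⟩ : ∃ W' : Subgroup (Ω ≃ₐ[ℚ] Ω),
    W' = ((wild (centerAt A₀ L)).map ((centerAt A₀ L).inertia (↥L ≃ₐ[ℚ] ↥L)).subtype).comap (AlgEquiv.restrictNormalHom (F := ℚ) (K₁ := Ω) ↥L) := ⟨_, rfl⟩
  have hI'iff : ∀ x : Ω ≃ₐ[ℚ] Ω, x ∈ I' ↔ (AlgEquiv.restrictNormalHom (F := ℚ) (K₁ := Ω) ↥L) x ∈ (centerAt A₀ L).inertia (↥L ≃ₐ[ℚ] ↥L) := fun x => by
    rw [hI']
    rfl
  have hW'iff : ∀ x : Ω ≃ₐ[ℚ] Ω, x ∈ W' ↔ ∃ h : (AlgEquiv.restrictNormalHom (F := ℚ) (K₁ := Ω) ↥L) x ∈ (centerAt A₀ L).inertia (↥L ≃ₐ[ℚ] ↥L),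
      (⟨(AlgEquiv.restrictNormalHom (F := ℚ) (K₁ := Ω) ↥L) x, h⟩ : (centerAt A₀ L).inertia (↥L ≃ₐ[ℚ] ↥L)) ∈ wild (centerAt A₀ L) := by
    intro x
    rw [hW']
    constructor
    · rintro ⟨σ, hσ, hσx⟩
      have h : (AlgEquiv.restrictNormalHom (F := ℚ) (K₁ := Ω) ↥L) x ∈ (centerAt A₀ L).inertia (↥L ≃ₐ[ℚ] ↥L) := by
        rw [← hσx]
        exact σ.2
      refine ⟨h, ?_⟩
      have : (⟨(AlgEquiv.restrictNormalHom (F := ℚ) (K₁ := Ω) ↥L) x, h⟩ : (centerAt A₀ L).inertia (↥L ≃ₐ[ℚ] ↥L)) = σ := Subtype.ext hσx.symm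
      rw [this]
      exact hσ
    · rintro ⟨h, hw⟩
      exact ⟨⟨(AlgEquiv.restrictNormalHom (F := ℚ) (K₁ := Ω) ↥L) x, h⟩, hw, rfl⟩
  have hnI : ∀ g ∈ D, ∀ x ∈ I', g * x * g⁻¹ ∈ I' := by
    intro g hg x hx
    rw [hI'iff] at hx ⊢
    rw [map_mul, map_mul, map_inv]
    exact conj_mem_inertia (centerAt A₀ L) (hstab g (hD ▸ hg)) ⟨(AlgEquiv.restrictNormalHom (F := ℚ) (K₁ := Ω) ↥L) x, hx⟩
  have hnW : ∀ g ∈ D, ∀ x ∈ W', g * x * g⁻¹ ∈ W' := by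
    intro g hg x hx
    obtain ⟨h, hw⟩ := (hW'iff x).1 hx
    rw [hW'iff]
    have hg' := hstab g (hD ▸ hg)
    have h1 := conj_mem_wild (centerAt A₀ L) hg' ⟨(AlgEquiv.restrictNormalHom (F := ℚ) (K₁ := Ω) ↥L) x, h⟩ hw
    have e : (AlgEquiv.restrictNormalHom (F := ℚ) (K₁ := Ω) ↥L) (g * x * g⁻¹) = (AlgEquiv.restrictNormalHom (F := ℚ) (K₁ := Ω) ↥L) g * (AlgEquiv.restrictNormalHom (F := ℚ) (K₁ := Ω) ↥L) x * ((AlgEquiv.restrictNormalHom (F := ℚ) (K₁ := Ω) ↥L) g)⁻¹ := by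
      rw [map_mul, map_mul, map_inv]
    have hmem : (AlgEquiv.restrictNormalHom (F := ℚ) (K₁ := Ω) ↥L) (g * x * g⁻¹) ∈ (centerAt A₀ L).inertia (↥L ≃ₐ[ℚ] ↥L) := by
      rw [e]
      exact conj_mem_inertia (centerAt A₀ L) hg' ⟨(AlgEquiv.restrictNormalHom (F := ℚ) (K₁ := Ω) ↥L) x, h⟩
    refine ⟨hmem, ?_⟩
    have : (⟨(AlgEquiv.restrictNormalHom (F := ℚ) (K₁ := Ω) ↥L) (g * x * g⁻¹), hmem⟩ : (centerAt A₀ L).inertia (↥L ≃ₐ[ℚ] ↥L)) =
        ⟨(AlgEquiv.restrictNormalHom (F := ℚ) (K₁ := Ω) ↥L) g * (AlgEquiv.restrictNormalHom (F := ℚ) (K₁ := Ω) ↥L) x * ((AlgEquiv.restrictNormalHom (F := ℚ) (K₁ := Ω) ↥L) g)⁻¹, conj_mem_inertia (centerAt A₀ L) hg' ⟨(AlgEquiv.restrictNormalHom (F := ℚ) (K₁ := Ω) ↥L) x, h⟩⟩ := Subtype.ext e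
    rw [this]
    exact h1
  -- the two homomorphisms to cyclic groups
  obtain ⟨f₁, h₁⟩ : ∃ f₁ : D →* C, ∀ x : D, f₁ x = 1 ↔ (x : Ω ≃ₐ[ℚ] Ω) ∈ I' := by
    refine ⟨f.comp (((AlgEquiv.restrictNormalHom (F := ℚ) (K₁ := Ω) ↥L).comp D.subtype).codRestrict (MulAction.stabilizer (↥L ≃ₐ[ℚ] ↥L) (centerAt A₀ L))
      (fun x => hstab x (hD ▸ x.2))), fun x => ?_⟩
    rw [hI'iff]
    exact hf ⟨(AlgEquiv.restrictNormalHom (F := ℚ) (K₁ := Ω) ↥L) x, hstab x (hD ▸ x.2)⟩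
  obtain ⟨f₂, h₂⟩ : ∃ f₂ : ↥(D ⊓ I') →* ((centerAt A₀ L).inertia (↥L ≃ₐ[ℚ] ↥L) ⧸ wild (centerAt A₀ L)),
      ∀ x : ↥(D ⊓ I'), f₂ x = 1 ↔ (x : Ω ≃ₐ[ℚ] Ω) ∈ W' := by
    refine ⟨(QuotientGroup.mk' (wild (centerAt A₀ L))).comp (((AlgEquiv.restrictNormalHom (F := ℚ) (K₁ := Ω) ↥L).comp (D ⊓ I').subtype).codRestrict
      ((centerAt A₀ L).inertia (↥L ≃ₐ[ℚ] ↥L)) (fun x => (hI'iff _).1 x.2.2)), fun x => ?_⟩
    rw [hW'iff]
    change (QuotientGroup.mk (⟨(AlgEquiv.restrictNormalHom (F := ℚ) (K₁ := Ω) ↥L) x, (hI'iff _).1 x.2.2⟩ : (centerAt A₀ L).inertia (↥L ≃ₐ[ℚ] ↥L)) :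
      (centerAt A₀ L).inertia (↥L ≃ₐ[ℚ] ↥L) ⧸ wild (centerAt A₀ L)) = 1 ↔ _
    rw [QuotientGroup.eq_one_iff]
    exact ⟨fun h => ⟨(hI'iff _).1 x.2.2, h⟩, fun ⟨_, h⟩ => h⟩
  obtain ⟨τ, hτ, φ, hφ, hconj, hgen⟩ := exists_chain D I' W' hnI f₁ h₁ f₂ h₂
  rw [← hD]
  refine ⟨(D ⊓ W').map r, r τ, r φ, ?_, ?_, ?_, ?_, ?_, ?_, ?_⟩
  · -- the image of wild inertia is a `q`-group
    rintro ⟨y, x, hx, rfl⟩
    obtain ⟨h, hw⟩ := (hW'iff x).1 hx.2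
    obtain ⟨k, hk⟩ := hpg ⟨⟨(AlgEquiv.restrictNormalHom (F := ℚ) (K₁ := Ω) ↥L) x, h⟩, hw⟩
    refine ⟨k, Subtype.ext ?_⟩
    have h1 : (AlgEquiv.restrictNormalHom (F := ℚ) (K₁ := Ω) ↥L) (x ^ q ^ k) = 1 := by
      rw [map_pow]
      have := congrArg (fun z : wild (centerAt A₀ L) => ((z : (centerAt A₀ L).inertia (↥L ≃ₐ[ℚ] ↥L)) : (↥L ≃ₐ[ℚ] ↥L))) hk
      simpa using this
    have h2 := hresker _ h1
    rw [map_pow] at h2
    simpa using h2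
  · exact Subgroup.map_mono inf_le_left
  · exact Subgroup.mem_map_of_mem r hτ.1
  · exact Subgroup.mem_map_of_mem r hφ
  · rintro _ ⟨d, hd, rfl⟩ _ ⟨x, hx, rfl⟩
    refine ⟨d * x * d⁻¹, ⟨D.mul_mem (D.mul_mem hd hx.1) (D.inv_mem hd), hnW d hd x hx.2⟩, ?_⟩
    rw [map_mul, map_mul, map_inv]
  · rintro _ ⟨d, hd, rfl⟩
    obtain ⟨m, hm⟩ := hconj d hd
    have e : r d * r τ * (r d)⁻¹ = r (d * τ * d⁻¹ * (τ ^ m)⁻¹) * (r τ) ^ m := by
      rw [map_mul, map_mul, map_mul, map_inv, map_inv, map_zpow, inv_mul_cancel_right]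
    rw [e]
    exact Subgroup.mul_mem_sup (Subgroup.mem_map_of_mem r hm)
      (Subgroup.zpow_mem_zpowers _ m)
  · rintro _ ⟨x, hx, rfl⟩
    obtain ⟨n, m, hnm⟩ := hgen x hx
    have e : r x = r (x * (φ ^ n)⁻¹ * (τ ^ m)⁻¹) * (r τ) ^ m * (r φ) ^ n := by
      rw [map_mul, map_mul, map_inv, map_inv, map_zpow, map_zpow, inv_mul_cancel_right,
        inv_mul_cancel_right]
    rw [e]
    have hw : r (x * (φ ^ n)⁻¹ * (τ ^ m)⁻¹) ∈
        Subgroup.closure ((((D ⊓ W').map r : Subgroup A) : Set A) ∪ {r τ, r φ}) :=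
      Subgroup.subset_closure (Or.inl (Subgroup.mem_map_of_mem r hnm))
    have hτc : r τ ∈
        Subgroup.closure ((((D ⊓ W').map r : Subgroup A) : Set A) ∪ {r τ, r φ}) :=
      Subgroup.subset_closure (Or.inr (Set.mem_insert _ _))
    have hφc : r φ ∈
        Subgroup.closure ((((D ⊓ W').map r : Subgroup A) : Set A) ∪ {r τ, r φ}) :=
      Subgroup.subset_closure (Or.inr (Set.mem_insert_of_mem _ rfl))
    exact Subgroup.mul_mem _ (Subgroup.mul_mem _ hw (Subgroup.zpow_mem _ hτc m))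
      (Subgroup.zpow_mem _ hφc n)

end AtLevel

/-- **(W-glob)** the wild / tame / unramified chain of the decomposition group at `q` in a finite
quotient of `GQ`. -/
theorem exists_wild_tame_chain {A : Type*} [Group A] [Finite A] (q : ℕ) [Fact q.Prime]
    (r : GQ →* A) (hr : ∃ U ∈ levelsAll.sets, U ≤ r.ker) :
    ∃ (W : Subgroup A) (tau phi : A), IsPGroup q W ∧ W ≤ (Dq q).map r ∧ tau ∈ (Dq q).map r ∧
      phi ∈ (Dq q).map r ∧ (∀ g ∈ (Dq q).map r, ∀ w ∈ W, g * w * g⁻¹ ∈ W) ∧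
      (∀ g ∈ (Dq q).map r, g * tau * g⁻¹ ∈ W ⊔ Subgroup.zpowers tau) ∧
      (Dq q).map r ≤ Subgroup.closure ((W : Set A) ∪ {tau, phi}) := by
  obtain ⟨U, ⟨-, F, hFfin, rfl⟩, hUle⟩ := hr
  have := hFfin
  have hLfin : FiniteDimensional ℚ (nc F) := finiteDimensional_nc F
  have hLnorm : Normal ℚ (nc F) := normal_nc F
  have hLgal : IsGalois ℚ (nc F) := ⟨⟩
  have hLker : (nc F).fixingSubgroup ≤ r.ker := fun τ hτ => hUle (by
    have := (mem_fixingSubgroup_nc_iff F τ).1 hτ 1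
    simpa using this)
  exact chain_of_level (padicPlace q) (nc F) (Fact.out : q.Prime) (liesOverPrime_padicPlace q) r
    hLker

end Main

end Fermat.Agent.S56.Tame.Chain
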